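import Mathlib
import Fermat.Agent.H58.RR.NonSpecial
import Fermat.Agent.H58.RR.Growth

/-!
# P-ORD row 1152 (ORD-GB-N10 N-SEP), helper16

`exists_sep_of_rrHyp` : a function field `F / K` (`K` algebraically closed) satisfying Riemann's
hypotheses `Fermat.Agent.H58.RRHyp K F` has a separating element: `x ∈ F` with `F / K(x)` finite
and separable.

* `sep_finrank_le` : `l(E) ≤ deg E + 1` for `E ≥ 0`.
* `sep_finite_of_transcendental` : `F / K(x)` is finite for every transcendental `x`
  (`[F : K(x)] ≤ deg D` for every `D ≥ 0` with `x ∈ L(D)`).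
* `exists_sep_of_rrHyp` : Mathlib's separating transcendence basis over a perfect field
  (`exists_isTranscendenceBasis_and_isSeparable_of_perfectField`), of cardinality `1`.
-/

set_option autoImplicit false
set_option linter.unusedSectionVars false
set_option linter.style.haveILetI false
set_option linter.unusedVariables false

noncomputable section

open AlgebraicCurve IntermediateField
open scoped IntermediateField.algebraAdjoinAdjoin

namespace Fermat.Agent.H16.ORD

open Fermat.Agent.H58

variable {K F : Type*} [Field K] [Field F] [Algebra K F]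

/-- `l(E) ≤ deg E + 1` for `E ≥ 0`. -/
theorem sep_finrank_le (h : RRHyp K F) {E : Divisor K F} (hE : 0 ≤ E) :
    (Module.finrank K (riemannRochSpace E) : ℤ) ≤ Divisor.degree E + 1 := by
  haveI := h.principal
  obtain ⟨v₀⟩ := h.exists_place
  have h1 := (rr_finrank_le_of_le h.deg_one v₀ hE).2
  rw [rr_finrank_zero h.deg_one v₀, map_zero] at h1
  push_cast at h1
  omega

/-- `x^j y ∈ L(l D + C)` for `x ∈ L(D)`, `y ∈ L(C)`, `j ≤ l`, `D ≥ 0`. -/
theorem sep_pow_mul_mem {D C : Divisor K F} (hD : 0 ≤ D) {x y : F} (hx0 : x ≠ 0)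
    (hx : x ∈ riemannRochSpace D) (hy : y ∈ riemannRochSpace C) {j l : ℕ} (hjl : j ≤ l) :
    x ^ j * y ∈ riemannRochSpace (l • D + C) := by
  rw [mem_riemannRochSpace_iff] at hx hy ⊢
  intro v
  by_cases hy0 : y = 0
  · left
    rw [hy0, mul_zero]
  right
  have hpow : v.ord (x ^ j) = (j : ℤ) * v.ord x := by
    rw [← zpow_natCast, v.ord_zpow]
  rw [v.ord_mul (pow_ne_zero j hx0) hy0, hpow]
  have h1 := (hx v).resolve_left hx0
  have h2 := (hy v).resolve_left hy0
  have h3 : 0 ≤ D v := (Finsupp.le_def.mp hD) v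
  have h4 : (j : ℤ) ≤ (l : ℤ) := by exact_mod_cast hjl
  have h5 : (0 : ℤ) ≤ (j : ℤ) := Int.natCast_nonneg j
  have h6 : (l • D + C) v = (l : ℤ) * D v + C v := by
    rw [Finsupp.add_apply, Finsupp.smul_apply, nsmul_eq_mul]
  rw [h6]
  have h7 := mul_le_mul_of_nonneg_left h1 h5
  have h8 := mul_nonneg (sub_nonneg.2 h4) h3
  nlinarith

/-- `F / K(x)` is finite for every transcendental `x`. -/
theorem sep_finite_of_transcendental (h : RRHyp K F) {x : F} (hx : Transcendental K x) :
    FiniteDimensional K⟮x⟯ F := by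
  classical
  haveI := h.principal
  obtain ⟨v₀⟩ := h.exists_place
  have hx0 : x ≠ 0 := by
    rintro rfl
    exact hx isAlgebraic_zero
  obtain ⟨D, hD0, hDx⟩ :=
    rr_exists_common_divisor (K := K) (F := F) ({()} : Finset Unit) (fun _ => x)
  have hxD : x ∈ riemannRochSpace D := hDx () (Finset.mem_singleton_self _)
  set d : ℤ := Divisor.degree D with hd
  have key : ∀ s : Finset F, (LinearIndependent K⟮x⟯ fun i : s => (i : F)) →
      (s.card : ℤ) ≤ d := by
    intro s hs
    obtain ⟨C, hC0, hC⟩ := rr_exists_common_divisor (K := K) (F := F) s (fun y => y)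
    set c : ℤ := Divisor.degree C with hc
    by_contra hlt
    rw [not_le] at hlt
    set l : ℕ := (c - d + 1).toNat with hl
    let b : Fin (l + 1) → K⟮x⟯ :=
      fun j => (⟨x, mem_adjoin_simple_self K x⟩ : K⟮x⟯) ^ (j : ℕ)
    have hb : LinearIndependent K b :=
      (rr_linearIndependent_pow hx).comp _ Fin.val_injective
    have hbc := linearIndependent_smul hb hs
    haveI := h.finite_space (l • D + C)
    have hmem : ∀ p : Fin (l + 1) × s,
        b p.1 • ((p.2 : F)) ∈ riemannRochSpace (l • D + C) := by
      intro p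
      have h1 : b p.1 • ((p.2 : F)) = x ^ (p.1 : ℕ) * (p.2 : F) := by
        rw [Algebra.smul_def]
        rfl
      rw [h1]
      exact sep_pow_mul_mem hD0 hx0 hxD (hC _ p.2.2) (Nat.lt_succ_iff.mp p.1.2)
    let f : Fin (l + 1) × s → riemannRochSpace (l • D + C) := fun p => ⟨_, hmem p⟩
    have hf : LinearIndependent K f :=
      LinearIndependent.of_comp (riemannRochSpace (l • D + C)).subtype hbc
    have hcard := hf.fintype_card_le_finrank
    rw [Fintype.card_prod, Fintype.card_fin, Fintype.card_coe] at hcard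
    have hub := sep_finrank_le h (E := l • D + C) (add_nonneg (nsmul_nonneg hD0 l) hC0)
    rw [map_add, map_nsmul, nsmul_eq_mul] at hub
    have hl' : c - d + 1 ≤ (l : ℤ) := Int.self_le_toNat _
    have h2 : (((l + 1) * s.card : ℕ) : ℤ) ≤
        (Module.finrank K (riemannRochSpace (l • D + C)) : ℤ) := by
      exact_mod_cast hcard
    push_cast at h2
    have h3 : ((l : ℤ) + 1) * (s.card : ℤ) ≤ (l : ℤ) * d + c + 1 := le_trans h2 hub
    have h4 : (0 : ℤ) ≤ (l : ℤ) := Int.natCast_nonneg l
    nlinarith
  have hrank : Module.rank K⟮x⟯ F ≤ (d.toNat : ℕ) :=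
    rank_le (fun s hs => by have := key s hs; omega)
  exact Module.rank_lt_aleph0_iff.1 (lt_of_le_of_lt hrank (Cardinal.natCast_lt_aleph0))

/-- Over an algebraically closed field, an algebraic element of an extension field is a
constant. -/
theorem sep_const_of_isAlgebraic [IsAlgClosed K] {f : F} (hf : IsAlgebraic K f) :
    ∃ c : K, algebraMap K F c = f := by
  have : Algebra.IsAlgebraic K K⟮f⟯ := IntermediateField.isAlgebraic_adjoin_simple hf.isIntegral
  have h := IntermediateField.eq_bot_of_isAlgClosed_of_isAlgebraic K⟮f⟯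
  have hf' : f ∈ K⟮f⟯ := IntermediateField.mem_adjoin_simple_self K f
  rw [h] at hf'
  exact IntermediateField.mem_bot.1 hf'

/-- a non-constant function is transcendental -/
theorem sep_exists_transcendental [IsAlgClosed K] (h : RRHyp K F) :
    ∃ x : F, Transcendental K x := by
  obtain ⟨x, hx⟩ := h.exists_nonconstant
  refine ⟨x, fun halg => ?_⟩
  obtain ⟨c, hc⟩ := sep_const_of_isAlgebraic halg
  exact hx c hc.symm

/-- **N-SEP**: a function field satisfying Riemann's hypotheses over an algebraically closed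
field has a separating element. -/
theorem exists_sep_of_rrHyp {K F : Type} [Field K] [Field F] [Algebra K F] [IsAlgClosed K]
    (h : Fermat.Agent.H58.RRHyp K F) :
    ∃ x : F, FiniteDimensional (IntermediateField.adjoin K {x}) F ∧
      Algebra.IsSeparable (IntermediateField.adjoin K {x}) F := by
  classical
  obtain ⟨x, hxT⟩ := sep_exists_transcendental h
  haveI hfin : FiniteDimensional K⟮x⟯ F := sep_finite_of_transcendental h hxT
  haveI e1 : Algebra.EssFiniteType K K⟮x⟯ :=
    IntermediateField.essFiniteType_iff.2 ⟨{x}, by simp⟩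
  haveI e3 : Algebra.EssFiniteType K F := Algebra.EssFiniteType.comp K K⟮x⟯ F
  obtain ⟨s, hs, hsep⟩ := exists_isTranscendenceBasis_and_isSeparable_of_perfectField K F
  -- the transcendence degree is at most one
  have h1 : Algebra.IsAlgebraic (Algebra.adjoin K {x}) F :=
    Algebra.IsAlgebraic.trans (Algebra.adjoin K {x}) K⟮x⟯ F
  have h2 : Algebra.trdeg K F ≤ Cardinal.mk ({x} : Set F) :=
    Algebra.IsAlgebraic.trdeg_le_cardinalMk K ({x} : Set F)
  have h3 := hs.cardinalMk_eq_trdeg
  have hcard : s.card ≤ 1 := by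
    have h4 : Cardinal.mk ({x} : Set F) = 1 := by simp
    rw [h4, ← h3] at h2
    have h5 : Cardinal.mk (s : Set F) = (s.card : Cardinal) := by simp
    have h6 : Cardinal.mk ↥s = (s.card : Cardinal) := by simp
    rw [h6] at h2
    exact_mod_cast h2
  have hne : s.Nonempty := by
    by_contra hemp
    rw [Finset.not_nonempty_iff_eq_empty] at hemp
    subst hemp
    haveI := hsep
    have h7 : IsAlgebraic (IntermediateField.adjoin K ((∅ : Finset F) : Set F)) x :=
      (Algebra.IsSeparable.isSeparable (IntermediateField.adjoin K ((∅ : Finset F) : Set F))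
        x).isIntegral.isAlgebraic
    have h8 : IntermediateField.adjoin K ((∅ : Finset F) : Set F) = ⊥ := by simp
    have h9 : Algebra.IsAlgebraic K (IntermediateField.adjoin K ((∅ : Finset F) : Set F)) := by
      rw [h8]
      exact Algebra.IsAlgebraic.of_injective (IntermediateField.botEquiv K F).toAlgHom
        (IntermediateField.botEquiv K F).injective
    exact hxT (h7.restrictScalars K)
  obtain ⟨x', hx'⟩ := Finset.card_eq_one.1 (le_antisymm hcard (Finset.card_pos.2 hne))
  subst hx'
  have hcoe : (({x'} : Finset F) : Set F) = {x'} := Finset.coe_singleton x'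
  rw [hcoe] at hsep
  refine ⟨x', ?_, hsep⟩
  haveI := hsep
  haveI e4 : Algebra.EssFiniteType K⟮x'⟯ F := Algebra.EssFiniteType.of_comp K K⟮x'⟯ F
  haveI : Algebra.IsAlgebraic K⟮x'⟯ F := Algebra.IsSeparable.isAlgebraic _ _
  exact Algebra.finite_of_essFiniteType_of_isAlgebraic

end Fermat.Agent.H16.ORD
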